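import Mathlib
import Fermat.Agent.CFT.A2.Transport
import Fermat.Agent.CFT.A5.SES

/-!
# PROJECT C, slice A5c (COH-HOM), part 1: internal Hom and coinduced modules

* `ihomCoind₁Iso P Y : (Rep.ihom P).obj (coind₁ R G Y) ≅ coind₁ R G (P.V →ₗ[R] Y)` for ANY `P`;
* `ihom_shortExact` : `Hom(P, -)` preserves short exact sequences when `P.V` is a projective
  `R`-module; `ihom_additive`;
* `resIhomIso f P X : Rep.res f (Hom(P, X)) ≅ Hom(Rep.res f P, Rep.res f X)`.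
-/

set_option autoImplicit false

open CategoryTheory Limits

universe u

namespace Fermat.Agent.CFT.A5c

open Fermat.Agent.CFT.A2

variable {R G : Type u} [CommRing R] [Group G]

/-- `Hom(P, coind₁ Y) ≃ coind₁ (Hom(P, Y))`, `F ↦ (x ↦ (v ↦ F (x⁻¹ v) x))`. -/
noncomputable def ihomCoind₁LinearEquiv (P : Rep.{u} R G) (Y : Type u) [AddCommGroup Y] [Module R Y] :
    (P.V →ₗ[R] (G → Y)) ≃ₗ[R] (G → (P.V →ₗ[R] Y)) where
  toFun F := fun x => (LinearMap.proj x).comp (F.comp (P.ρ x⁻¹))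
  map_add' F F' := by
    funext x
    ext v
    simp
  map_smul' r F := by
    funext x
    ext v
    simp
  invFun Ψ := LinearMap.pi (fun x => (Ψ x).comp (P.ρ x))
  left_inv F := by
    ext v x
    simp
  right_inv Ψ := by
    funext x
    ext v
    simp

theorem ihomCoind₁LinearEquiv_apply (P : Rep.{u} R G) (Y : Type u) [AddCommGroup Y] [Module R Y]
    (F : P.V →ₗ[R] (G → Y)) (x : G) (v : P.V) :
    ihomCoind₁LinearEquiv P Y F x v = F (P.ρ x⁻¹ v) x := rfl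

/-- `Hom(P, coind₁ Y) ≅ coind₁ (Hom(P, Y))` as representations. -/
noncomputable def ihomCoind₁Iso (P : Rep.{u} R G) (Y : Type u) [AddCommGroup Y] [Module R Y] :
    (Rep.ihom P).obj (coind₁ R G Y) ≅ coind₁ R G (P.V →ₗ[R] Y) :=
  Rep.mkIso (Representation.Equiv.mk (ihomCoind₁LinearEquiv P Y) (fun g => by
    ext F x v
    show ((funRep R G Y g) ∘ₗ F ∘ₗ P.ρ g⁻¹) (P.ρ x⁻¹ v) x = F (P.ρ (x * g)⁻¹ v) (x * g)
    simp [mul_inv_rev]))


theorem ihom_map_hom_apply (P : Rep.{u} R G) {X Y : Rep.{u} R G} (f : X ⟶ Y) (F : P.V →ₗ[R] X.V) :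
    ((Rep.ihom P).map f).hom F = (f.hom.toLinearMap ∘ₗ F : P.V →ₗ[R] Y.V) := rfl

instance ihom_additive (P : Rep.{u} R G) : (Rep.ihom P).Additive where
  map_add {X Y} f g := by
    ext F
    rfl

/-- `Hom(P, -)` preserves short exact sequences when `P` is projective as an `R`-module. -/
theorem ihom_shortExact (P : Rep.{u} R G) [Module.Projective R P.V] {S : ShortComplex (Rep.{u} R G)}
    (hS : S.ShortExact) : (S.map (Rep.ihom P)).ShortExact := by
  have hf : Function.Injective S.f.hom := (Rep.mono_iff_injective _).1 hS.mono_f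
  have hg : Function.Surjective S.g.hom := (Rep.epi_iff_surjective _).1 hS.epi_g
  have hex : ∀ x : S.X₂.V, S.g.hom x = 0 → ∃ y : S.X₁.V, S.f.hom y = x :=
    fun x hx => rep_exact_apply hS.exact x hx
  refine A5.shortExact_of_functions ((Rep.ihom P).map S.f) ((Rep.ihom P).map S.g)
    (S.map (Rep.ihom P)).zero ?_ ?_ ?_
  · intro (F : P.V →ₗ[R] S.X₁.V) (F' : P.V →ₗ[R] S.X₁.V) h
    have h' : (S.f.hom.toLinearMap ∘ₗ (F : P.V →ₗ[R] S.X₁.V)) =
        S.f.hom.toLinearMap ∘ₗ (F' : P.V →ₗ[R] S.X₁.V) := h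
    apply LinearMap.ext
    intro v
    exact hf (LinearMap.congr_fun h' v)
  · intro (F'' : P.V →ₗ[R] S.X₃.V)
    obtain ⟨F, hF⟩ := Module.projective_lifting_property S.g.hom.toLinearMap
      (F'' : P.V →ₗ[R] S.X₃.V) hg
    exact ⟨F, hF⟩
  · intro (F : P.V →ₗ[R] S.X₂.V) hF
    have hF' : (S.g.hom.toLinearMap ∘ₗ (F : P.V →ₗ[R] S.X₂.V)) = 0 := hF
    have hmem : ∀ v, (F : P.V →ₗ[R] S.X₂.V) v ∈ LinearMap.range S.f.hom.toLinearMap := by
      intro v
      obtain ⟨y, hy⟩ := hex ((F : P.V →ₗ[R] S.X₂.V) v) (LinearMap.congr_fun hF' v)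
      exact ⟨y, hy⟩
    let e := LinearEquiv.ofInjective S.f.hom.toLinearMap hf
    refine ⟨(e.symm.toLinearMap ∘ₗ LinearMap.codRestrict _ (F : P.V →ₗ[R] S.X₂.V) hmem : P.V →ₗ[R] S.X₁.V), ?_⟩
    show (S.f.hom.toLinearMap ∘ₗ (e.symm.toLinearMap ∘ₗ
      LinearMap.codRestrict _ (F : P.V →ₗ[R] S.X₂.V) hmem)) = (F : P.V →ₗ[R] S.X₂.V)
    apply LinearMap.ext
    intro v
    have := LinearEquiv.apply_symm_apply e (LinearMap.codRestrict _ (F : P.V →ₗ[R] S.X₂.V) hmem v)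
    exact congrArg Subtype.val this


/-- Restriction commutes with the internal Hom. -/
noncomputable def resIhomIso {H : Type u} [Group H] (f : H →* G) (P X : Rep.{u} R G) :
    Rep.res f ((Rep.ihom P).obj X) ≅ (Rep.ihom (Rep.res f P)).obj (Rep.res f X) :=
  Rep.mkIso (Representation.Equiv.mk (LinearEquiv.refl R (P.V →ₗ[R] X.V)) (fun h => by
    refine LinearMap.ext (fun (F : P.V →ₗ[R] X.V) => LinearMap.ext (fun v => ?_))
    show X.ρ (f h) (F (P.ρ ((f h)⁻¹) v)) = X.ρ (f h) (F (P.ρ (f h⁻¹) v))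
    rw [map_inv f h]))

end Fermat.Agent.CFT.A5c
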