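import Mathlib
import Fermat.Agent.CFT.A5c.HomCoind
import Fermat.Agent.CFT.A5.Twin

/-!
# PROJECT C, slice A5c: (COH-HOM)

If `X` is a cohomologically trivial `G`-module (`G` finite) and `P` is a `G`-module which is
projective as an `R`-module (e.g. a lattice), then `Hom(P, X) = (Rep.ihom P).obj X` is
cohomologically trivial (`isCohTrivial_ihom`, `isCohTrivial_ihom_int`).

Proof (Serre, *Local Fields* IX §5): Sylow reduction (`A2.isCohTrivial_of_sylow`); over a `p`-group,
a free cover `0 → K → coind₁ → X → 0` reduces to `X` without `p`-torsion; then `X/p ≅ coind₁ Y`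
(helper9's `isIso_coindLift`), so `Hom(P, X)/p ≅ Hom(P, X/p) ≅ coind₁ Hom(P, Y)` is cohomologically
trivial and multiplication by `p` is bijective on the `p`-primary groups `Ĥⁿ(H, Hom(P, X))`.
-/

set_option autoImplicit false

open CategoryTheory Limits

universe u

namespace Fermat.Agent.CFT.A5c

open Fermat.Agent.CFT.A2 Fermat.Agent.CFT.A5

variable {R G : Type u} [CommRing R] [Group G]

/-- `Hom(P, coind₁ Y)` is cohomologically trivial. -/
theorem isCohTrivial_ihom_coind₁ (P : Rep.{u} R G) (Y : Type u) [AddCommGroup Y] [Module R Y] :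
    IsCohTrivial ((Rep.ihom P).obj (coind₁ R G Y)) :=
  (isCohTrivial_coind₁ (R := R) (G := G) (P.V →ₗ[R] Y)).of_iso (ihomCoind₁Iso P Y).symm

section PGroup

variable [Fintype G] {p : ℕ} [Fact p.Prime]

/-- COH-HOM for a `p`-group and a module `X` without `p`-torsion. -/
theorem isCohTrivial_ihom_of_pGroup_torsionFree (hR : AddHomsLinear R) (hG : IsPGroup p G)
    (P X : Rep.{u} R G) [Module.Projective R P.V] (htf : ∀ a : X.V, p • a = 0 → a = 0)
    (hX2 : IsZero (tateCohomology X (-2))) (hX1 : IsZero (tateCohomology X (-1))) :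
    IsCohTrivial ((Rep.ihom P).obj X) := by
  have hinj : Function.Injective (p • 𝟙 X : X ⟶ X).hom := by
    intro a b hab
    rw [nsmul_id_hom_apply, nsmul_id_hom_apply] at hab
    have : p • (a - b) = 0 := by rw [smul_sub, hab, sub_self]
    exact sub_eq_zero.mp (htf _ this)
  have hS := cokerSeq_shortExact (p • 𝟙 X : X ⟶ X) hinj
  have hBp : ∀ b : (cokerRep (p • 𝟙 X : X ⟶ X)).V, p • b = 0 := by
    intro b
    obtain ⟨a, rfl⟩ := Submodule.Quotient.mk_surjective _ b
    rw [← Submodule.Quotient.mk_smul]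
    exact (Submodule.Quotient.mk_eq_zero _).mpr ⟨a, rfl⟩
  have hB2 : IsZero (tateCohomology (cokerRep (p • 𝟙 X : X ⟶ X)) (-2)) :=
    isZero_tate_X₃ hS (-2) hX2 hX1
  obtain ⟨ψ, hψ⟩ := exists_section hR (cokerRep (p • 𝟙 X : X ⟶ X)) hBp
  have := isIso_coindLift hG (cokerRep (p • 𝟙 X : X ⟶ X)) hBp ψ hψ hB2
  -- `Hom(P, X/p)` is cohomologically trivial
  have hHB : IsCohTrivial ((Rep.ihom P).obj (cokerRep (p • 𝟙 X : X ⟶ X))) :=
    (isCohTrivial_ihom_coind₁ P _).of_iso
      ((Rep.ihom P).mapIso (asIso (coindLift (cokerRep (p • 𝟙 X : X ⟶ X)) ψ)))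
  -- the sequence `0 → Hom(P,X) --p--> Hom(P,X) → Hom(P,X/p) → 0`
  have hSP := ihom_shortExact P hS
  intro H _ n
  have hSH := (Rep.shortExact_res H.subtype).2 hSP
  refine isZero_tate_of_mul_p (hG.to_subgroup H) _ _ _ hSH ?_ n (hHB H n)
  show (Rep.resFunctor H.subtype).map ((Rep.ihom P).map (p • 𝟙 X)) = p • 𝟙 _
  rw [Functor.map_nsmul, CategoryTheory.Functor.map_id, Functor.map_nsmul,
    CategoryTheory.Functor.map_id]
  rfl

/-- COH-HOM for a `p`-group. -/
theorem isCohTrivial_ihom_of_pGroup (hR : AddHomsLinear R)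
    (hpR : ∀ r : R, (p : R) * r = 0 → r = 0) (hG : IsPGroup p G)
    (P X : Rep.{u} R G) [Module.Projective R P.V]
    (hXG : ∀ n : ℤ, IsZero (tateCohomology X n)) :
    IsCohTrivial ((Rep.ihom P).obj X) := by
  have hS := kerSeq_shortExact (freeCover X) (freeCover_surjective X)
  have htf : ∀ k : (kerRep (freeCover X)).V, p • k = 0 → k = 0 := by
    intro k hk
    apply Subtype.ext
    funext x
    ext a
    have h2 : p • ((k : G → (X.V →₀ R)) x a) = 0 := by
      have h3 : ((p • k : (kerRep (freeCover X)).V) : G → (X.V →₀ R)) = 0 := by rw [hk]; rfl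
      have h4 := congrArg (fun φ : G → (X.V →₀ R) => φ x a) h3
      exact h4
    rw [nsmul_eq_mul] at h2
    exact hpR _ h2
  have hK : ∀ n : ℤ, IsZero (tateCohomology (kerRep (freeCover X)) n) := by
    intro n
    have := isZero_tate_X₁ hS (n - 1) (hXG (n - 1))
      (isZero_tateCohomology_coind₁ R G _ (n - 1 + 1))
    rwa [sub_add_cancel] at this
  have hHK : IsCohTrivial ((Rep.ihom P).obj (kerRep (freeCover X))) :=
    isCohTrivial_ihom_of_pGroup_torsionFree hR hG P _ htf (hK (-2)) (hK (-1))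
  have hSP := ihom_shortExact P hS
  have h3 : IsCohTrivial ((kerSeq (freeCover X)).map (Rep.ihom P)).X₃ :=
    IsCohTrivial.X₃ hSP hHK (isCohTrivial_ihom_coind₁ P _)
  exact h3

end PGroup

/-- **(COH-HOM)** If `X` is cohomologically trivial and `P` is projective as an `R`-module, then
`Hom(P, X)` is cohomologically trivial. -/
theorem isCohTrivial_ihom [Finite G] (hR : AddHomsLinear R)
    (hRtf : ∀ p : ℕ, p.Prime → ∀ r : R, (p : R) * r = 0 → r = 0)
    (P X : Rep.{u} R G) [Module.Projective R P.V] (hX : IsCohTrivial X) :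
    IsCohTrivial ((Rep.ihom P).obj X) := by
  refine isCohTrivial_of_sylow _ (fun p hp => ?_)
  obtain ⟨Q⟩ : Nonempty (Sylow p G) := inferInstance
  refine ⟨Q, ?_⟩
  let _ : Fintype (Q : Subgroup G) := Fintype.ofFinite _
  have hXQ : IsCohTrivial (Rep.res (Q : Subgroup G).subtype X) := hX.res _
  have hXQG : ∀ n : ℤ, IsZero (tateCohomology (Rep.res (Q : Subgroup G).subtype X) n) :=
    fun n => hX (Q : Subgroup G) n
  have h1 : IsCohTrivial ((Rep.ihom (Rep.res (Q : Subgroup G).subtype P)).obj
      (Rep.res (Q : Subgroup G).subtype X)) :=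
    isCohTrivial_ihom_of_pGroup hR (hRtf p hp.out) Q.isPGroup' _ _ hXQG
  exact h1.of_iso (resIhomIso (Q : Subgroup G).subtype P X).symm

/-- (COH-HOM) over `ℤ`, projectivity with respect to the module structure carried by `P`. -/
theorem isCohTrivial_ihom_int {G : Type} [Group G] [Finite G] (P X : Rep.{0} ℤ G)
    (hP : @Module.Projective ℤ _ P.V _ P.hV2) (hX : IsCohTrivial X) :
    IsCohTrivial ((Rep.ihom P).obj X) :=
  @isCohTrivial_ihom ℤ G _ _ _ addHomsLinear_int (fun p hp r h => by
    rcases mul_eq_zero.1 h with h | h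
    · exact absurd (by exact_mod_cast h) hp.ne_zero
    · exact h) P X hP hX

/-- (COH-HOM) over `ℤ`, projectivity with respect to the canonical `ℤ`-module structure of the
underlying additive group (the two structures agree, but not definitionally). -/
theorem isCohTrivial_ihom_int' {G : Type} [Group G] [Finite G] (P X : Rep.{0} ℤ G)
    (hP : @Module.Projective ℤ _ P.V _ (AddCommGroup.toIntModule P.V)) (hX : IsCohTrivial X) :
    IsCohTrivial ((Rep.ihom P).obj X) := by
  have h : (AddCommGroup.toIntModule P.V : Module ℤ P.V) = P.hV2 := Subsingleton.elim _ _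
  exact isCohTrivial_ihom_int P X (h ▸ hP) hX

end Fermat.Agent.CFT.A5c
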