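import Mathlib
import Fermat.Agent.CFT.A5c.HomTrivial
import Fermat.Agent.CFT.A5.ClassK
import Fermat.Agent.CFT.A2.Regular
import Fermat.Agent.CFT.A2.UpLattice

/-!
# PROJECT C, slice A5c: the two vanishing inputs `hR1`, `hE2` of (TN-20)/(NT) from (COH-HOM)

For a finite group `G`, a class module `(C, φ)` over `k` and a `G`-module `P` that is projective
over `k` (e.g. a lattice, or `up (up B)` for a lattice `B`):

* `isZero_groupCohomology_ihom_leftRegular` : `Hⁿ(G, Hom(P, k[G])) = 0` for `n ≥ 1`;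
* `isZero_groupCohomology_ihom_split` : `Hⁿ(G, Hom(P, C(φ))) = 0` for `n ≥ 1`.

These are literally the hypotheses `hR1`, `hE2` of helper16's `TN20Cup.tn20_left_kernel` and of
helper26's `NTHyp`.
-/

set_option autoImplicit false

open CategoryTheory Limits groupCohomology

universe u

namespace Fermat.Agent.CFT.A5c

open Fermat.Agent.CFT.A2 Fermat.Agent.CFT.A5 Fermat.Agent.CFT.A5.Tate Fermat.Agent.CFT.A5.Split
  Fermat.Agent.CFT.A5.ClassK

variable {k G : Type u} [CommRing k] [Group G] [Fintype G]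

/-- `Hom(P, k[G])` is cohomologically trivial for `P` projective over `k`. -/
theorem isCohTrivial_ihom_leftRegular (hR : AddHomsLinear k)
    (hpR : ∀ p : ℕ, p.Prime → ∀ r : k, (p : k) * r = 0 → r = 0)
    (P : Rep.{u} k G) [Module.Projective k P.V] :
    IsCohTrivial ((Rep.ihom P).obj (Rep.leftRegular k G)) :=
  isCohTrivial_ihom hR hpR P _ (isCohTrivial_leftRegular k G)

/-- `hR1` of (TN-20): `Hⁿ(G, Hom(P, k[G])) = 0` for `n ≥ 1`, `P` projective over `k`. -/
theorem isZero_groupCohomology_ihom_leftRegular (hR : AddHomsLinear k)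
    (hpR : ∀ p : ℕ, p.Prime → ∀ r : k, (p : k) * r = 0 → r = 0)
    (P : Rep.{u} k G) [Module.Projective k P.V] (n : ℕ) [NeZero n] :
    IsZero (groupCohomology ((Rep.ihom P).obj (Rep.leftRegular k G)) n) :=
  isZero_groupCohomology_of_isCohTrivial_top (isCohTrivial_ihom_leftRegular hR hpR P) n

variable {C : Rep.{u} k G} {φ : cocycles₂ C}

/-- `Hom(P, C(φ))` is cohomologically trivial for a class module `(C, φ)` and `P` projective over
`k`. -/
theorem isCohTrivial_ihom_split (hR : AddHomsLinear k)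
    (hpR : ∀ p : ℕ, p.Prime → ∀ r : k, (p : k) * r = 0 → r = 0) (hC : IsClassModule C φ)
    (P : Rep.{u} k G) [Module.Projective k P.V] :
    IsCohTrivial ((Rep.ihom P).obj (split C φ)) :=
  isCohTrivial_ihom hR hpR P _ (isCohTrivial_split_of_isClassModule hR hpR hC)

/-- `hE2` of (TN-20): `Hⁿ(G, Hom(P, C(φ))) = 0` for `n ≥ 1`. -/
theorem isZero_groupCohomology_ihom_split (hR : AddHomsLinear k)
    (hpR : ∀ p : ℕ, p.Prime → ∀ r : k, (p : k) * r = 0 → r = 0) (hC : IsClassModule C φ)
    (P : Rep.{u} k G) [Module.Projective k P.V] (n : ℕ) [NeZero n] :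
    IsZero (groupCohomology ((Rep.ihom P).obj (split C φ)) n) :=
  isZero_groupCohomology_of_isCohTrivial_top (isCohTrivial_ihom_split hR hpR hC P) n

/-- The same two facts for `Q = up (up B)`, `B` free over `k` (the form (NT) consumes). -/
theorem isZero_groupCohomology_ihom_upup (hR : AddHomsLinear k)
    (hpR : ∀ p : ℕ, p.Prime → ∀ r : k, (p : k) * r = 0 → r = 0) (hC : IsClassModule C φ)
    (B : Rep.{u} k G) [Module.Free k B.V] :
    IsZero (groupCohomology ((Rep.ihom (up (up B))).obj (Rep.leftRegular k G)) 1) ∧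
      IsZero (groupCohomology ((Rep.ihom (up (up B))).obj (split C φ)) 2) :=
  ⟨isZero_groupCohomology_ihom_leftRegular hR hpR _ 1,
    isZero_groupCohomology_ihom_split hR hpR hC _ 2⟩

end Fermat.Agent.CFT.A5c
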